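import Mathlib
import Fermat.Agent.Lib.RR.RRI

set_option autoImplicit false
set_option linter.style.haveILetI false
set_option linter.unusedSectionVars false

/-!
# Riemann-Hurwitz by lattices, part 0: valuation calculus at the poles of `x`

* `adicValuation_aeval_eq`: `|p(x)|_v = |x|_v ^ deg p` at a pole `v` of `x`.
* `IntAway x f`: `f` has no pole outside the poles of `x`;  `InfBd x d f`: `|f|_v ≤ |x|_v ^ d` at the
  poles of `x`.  `f ∈ L(m (x)_∞) ↔ IntAway x f ∧ InfBd x m f`.
* `exists_aeval_mul_intAway`: clearing the finite poles by a polynomial in `x`.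
-/

noncomputable section

open AlgebraicCurve IntermediateField Polynomial WithZero

namespace Fermat.Agent.RRHur

open Fermat.Agent.RR

variable {K F : Type*} [Field K] [Field F] [Algebra K F]

section Val

variable (v : Place K F)

theorem adicValuation_algebraMap_eq_one {c : K} (hc : c ≠ 0) :
    v.adicValuation (algebraMap K F c) = 1 := by
  have h1 := v.adicValuation_algebraMap_le_one c
  have h2 := v.adicValuation_algebraMap_le_one c⁻¹
  have h3 : v.adicValuation (algebraMap K F c) * v.adicValuation (algebraMap K F c⁻¹) = 1 := by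
    rw [← map_mul, ← map_mul, mul_inv_cancel₀ hc, map_one, map_one]
  refine le_antisymm h1 ?_
  calc (1 : ℤᵐ⁰) = v.adicValuation (algebraMap K F c) * v.adicValuation (algebraMap K F c⁻¹) :=
        h3.symm
    _ ≤ v.adicValuation (algebraMap K F c) * 1 := by gcongr
    _ = _ := mul_one _

theorem one_lt_adicValuation_iff {f : F} : 1 < v.adicValuation f ↔ v.ord f < 0 := by
  rw [← not_le, v.not_adicValuation_le_one_iff]

theorem adicValuation_le_one_iff' {f : F} : v.adicValuation f ≤ 1 ↔ 0 ≤ v.ord f := by
  rw [v.adicValuation_le_one_iff]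
  constructor
  · rintro (rfl | h)
    · simp
    · exact h
  · exact fun h => Or.inr h

theorem adicValuation_eq_exp (f : F) (hf : f ≠ 0) : v.adicValuation f = exp (-v.ord f) :=
  v.adicValuation_eq_exp_neg_ord hf

/-- valuation form of a lower bound for `ord`. -/
theorem adicValuation_le_zpow_iff {x f : F} (hx : x ≠ 0) (d : ℤ) :
    v.adicValuation f ≤ v.adicValuation x ^ d ↔ f = 0 ∨ d * v.ord x ≤ v.ord f := by
  rw [v.adicValuation_eq_exp_neg_ord hx, ← WithZero.exp_zsmul, v.adicValuation_le_exp_iff]
  simp only [smul_eq_mul, mul_neg, neg_neg]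

theorem adicValuation_aeval_le {x : F} (hx : 1 ≤ v.adicValuation x) (p : K[X]) :
    v.adicValuation (aeval x p) ≤ v.adicValuation x ^ p.natDegree := by
  rw [aeval_eq_sum_range]
  apply Valuation.map_sum_le
  intro i hi
  rw [Algebra.smul_def, map_mul, map_pow]
  have hi' : i ≤ p.natDegree := by
    simpa [Finset.mem_range, Nat.lt_succ_iff] using hi
  calc v.adicValuation (algebraMap K F (p.coeff i)) * v.adicValuation x ^ i
      ≤ 1 * v.adicValuation x ^ i := by
        gcongr
        exact v.adicValuation_algebraMap_le_one _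
    _ = v.adicValuation x ^ i := one_mul _
    _ ≤ v.adicValuation x ^ p.natDegree := pow_le_pow_right₀ hx hi'

theorem adicValuation_aeval_le_one {x : F} (hx : v.adicValuation x ≤ 1) (p : K[X]) :
    v.adicValuation (aeval x p) ≤ 1 := by
  rw [aeval_eq_sum_range]
  apply Valuation.map_sum_le
  intro i _
  rw [Algebra.smul_def, map_mul, map_pow]
  calc v.adicValuation (algebraMap K F (p.coeff i)) * v.adicValuation x ^ i
      ≤ 1 * 1 := by
        gcongr
        · exact v.adicValuation_algebraMap_le_one _
        · exact pow_le_one₀ zero_le hx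
    _ = 1 := one_mul _

theorem adicValuation_aeval_eq {x : F} (hx : 1 < v.adicValuation x) {p : K[X]} (hp : p ≠ 0) :
    v.adicValuation (aeval x p) = v.adicValuation x ^ p.natDegree := by
  have hlc : p.leadingCoeff ≠ 0 := leadingCoeff_ne_zero.mpr hp
  have hdec := p.eraseLead_add_C_mul_X_pow
  have hlead : v.adicValuation (aeval x (C p.leadingCoeff * X ^ p.natDegree)) =
      v.adicValuation x ^ p.natDegree := by
    rw [map_mul, aeval_C, map_pow, aeval_X, map_mul, map_pow,
      adicValuation_algebraMap_eq_one v hlc, one_mul]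
  rcases Nat.eq_zero_or_pos p.natDegree with h0 | hpos
  · have : p = C p.leadingCoeff := by
      conv_lhs => rw [eq_C_of_natDegree_eq_zero h0]
      rw [leadingCoeff, h0]
    rw [this, aeval_C, natDegree_C, pow_zero]
    exact adicValuation_algebraMap_eq_one v hlc
  · have hlt : v.adicValuation (aeval x p.eraseLead) < v.adicValuation x ^ p.natDegree := by
      calc v.adicValuation (aeval x p.eraseLead)
          ≤ v.adicValuation x ^ p.eraseLead.natDegree := adicValuation_aeval_le v hx.le _
        _ ≤ v.adicValuation x ^ (p.natDegree - 1) :=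
            pow_le_pow_right₀ hx.le (eraseLead_natDegree_le p)
        _ < v.adicValuation x ^ p.natDegree := by
            apply pow_lt_pow_right₀ hx
            omega
    conv_lhs => rw [← hdec, map_add]
    rw [← hlead] at hlt ⊢
    rw [add_comm]
    exact Valuation.map_add_eq_of_lt_left _ hlt

end Val

/-! ### integrality away from the poles of `x`, bounds at the poles -/

/-- `f` has no pole outside the poles of `x`. -/
def IntAway (x f : F) : Prop :=
  ∀ v : Place K F, v.adicValuation x ≤ 1 → v.adicValuation f ≤ 1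

/-- `|f|_v ≤ |x|_v ^ d` at every pole `v` of `x`. -/
def InfBd (x : F) (d : ℤ) (f : F) : Prop :=
  ∀ v : Place K F, 1 < v.adicValuation x → v.adicValuation f ≤ v.adicValuation x ^ d

theorem IntAway.zero (x : F) : IntAway (K := K) x 0 := fun v _ => by simp

theorem IntAway.add {x f g : F} (hf : IntAway (K := K) x f) (hg : IntAway (K := K) x g) :
    IntAway (K := K) x (f + g) := fun v hv =>
  (Valuation.map_add _ _ _).trans (max_le (hf v hv) (hg v hv))

theorem IntAway.neg {x f : F} (hf : IntAway (K := K) x f) : IntAway (K := K) x (-f) :=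
  fun v hv => by rw [Valuation.map_neg]; exact hf v hv

theorem IntAway.sub {x f g : F} (hf : IntAway (K := K) x f) (hg : IntAway (K := K) x g) :
    IntAway (K := K) x (f - g) := by
  rw [sub_eq_add_neg]; exact hf.add hg.neg

theorem IntAway.mul {x f g : F} (hf : IntAway (K := K) x f) (hg : IntAway (K := K) x g) :
    IntAway (K := K) x (f * g) := fun v hv => by
  rw [map_mul]
  calc v.adicValuation f * v.adicValuation g ≤ 1 * 1 := by
        gcongr
        · exact hf v hv
        · exact hg v hv
    _ = 1 := one_mul _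

theorem intAway_aeval (x : F) (p : K[X]) : IntAway (K := K) x (Polynomial.aeval x p) :=
  fun v hv => adicValuation_aeval_le_one v hv p

theorem IntAway.sum {ι : Type*} {x : F} (s : Finset ι) (f : ι → F)
    (hf : ∀ i ∈ s, IntAway (K := K) x (f i)) : IntAway (K := K) x (∑ i ∈ s, f i) := fun v hv =>
  Valuation.map_sum_le _ fun i hi => hf i hi v hv

theorem InfBd.zero (x : F) (d : ℤ) : InfBd (K := K) x d 0 := fun v _ => by simp

theorem InfBd.add {x f g : F} {d : ℤ} (hf : InfBd (K := K) x d f) (hg : InfBd (K := K) x d g) :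
    InfBd (K := K) x d (f + g) := fun v hv =>
  (Valuation.map_add _ _ _).trans (max_le (hf v hv) (hg v hv))

theorem InfBd.neg {x f : F} {d : ℤ} (hf : InfBd (K := K) x d f) : InfBd (K := K) x d (-f) :=
  fun v hv => by rw [Valuation.map_neg]; exact hf v hv

theorem InfBd.sub {x f g : F} {d : ℤ} (hf : InfBd (K := K) x d f) (hg : InfBd (K := K) x d g) :
    InfBd (K := K) x d (f - g) := by
  rw [sub_eq_add_neg]; exact hf.add hg.neg

theorem InfBd.sum {ι : Type*} {x : F} {d : ℤ} (s : Finset ι) (f : ι → F)
    (hf : ∀ i ∈ s, InfBd (K := K) x d (f i)) : InfBd (K := K) x d (∑ i ∈ s, f i) := fun v hv =>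
  Valuation.map_sum_le _ fun i hi => hf i hi v hv

theorem InfBd.mono {x f : F} {d d' : ℤ} (hf : InfBd (K := K) x d f) (hd : d ≤ d') :
    InfBd (K := K) x d' f := fun v hv =>
  (hf v hv).trans (zpow_le_zpow_right₀ hv.le hd)

theorem InfBd.mul {x f g : F} {d e : ℤ} (hf : InfBd (K := K) x d f) (hg : InfBd (K := K) x e g) :
    InfBd (K := K) x (d + e) (f * g) := fun v hv => by
  have hx0 : v.adicValuation x ≠ 0 := (zero_lt_one.trans hv).ne'
  rw [map_mul, zpow_add₀ hx0]
  exact mul_le_mul' (hf v hv) (hg v hv)

theorem infBd_aeval (x : F) (p : K[X]) : InfBd (K := K) x p.natDegree (Polynomial.aeval x p) :=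
  fun v hv => by
    rw [zpow_natCast]
    exact adicValuation_aeval_le v hv.le p

/-- cancelling a polynomial factor. -/
theorem InfBd.of_aeval_mul {x f : F} {p : K[X]} (hp : p ≠ 0) {B : ℤ}
    (h : InfBd (K := K) x B (Polynomial.aeval x p * f)) : InfBd (K := K) x (B - p.natDegree) f := fun v hv => by
  have hx0 : v.adicValuation x ≠ 0 := (zero_lt_one.trans hv).ne'
  have h1 := h v hv
  rw [map_mul, adicValuation_aeval_eq v hv hp] at h1
  rw [zpow_sub₀ hx0, zpow_natCast, le_div_iff₀ (pow_pos (zero_lt_one.trans hv) _), mul_comm]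
  exact h1

/-! ### link with `L(m (x)_∞)` -/

theorem exp_nsmul_poleDiv_of_pole (h : IsRRField K F) {x : F} (hx0 : x ≠ 0) (m : ℕ)
    (v : Place K F) (hv : 1 < v.adicValuation x) :
    exp ((m • poleDiv h x) v) = v.adicValuation x ^ m := by
  have hord : v.ord x < 0 := (one_lt_adicValuation_iff v).mp hv
  rw [Finsupp.smul_apply, poleDiv_apply, max_eq_left (by omega), v.adicValuation_eq_exp_neg_ord hx0,
    ← WithZero.exp_nsmul]

theorem exp_nsmul_poleDiv_of_not_pole (h : IsRRField K F) {x : F} (m : ℕ)
    (v : Place K F) (hv : v.adicValuation x ≤ 1) :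
    exp ((m • poleDiv h x) v) = 1 := by
  have hord : 0 ≤ v.ord x := (adicValuation_le_one_iff' v).mp hv
  rw [Finsupp.smul_apply, poleDiv_apply, max_eq_right (by omega), smul_zero, WithZero.exp_zero]

theorem mem_riemannRochSpace_nsmul_poleDiv_iff (h : IsRRField K F) {x : F} (hx0 : x ≠ 0) (m : ℕ)
    (f : F) :
    f ∈ riemannRochSpace (m • poleDiv h x) ↔ IntAway (K := K) x f ∧ InfBd (K := K) x m f := by
  constructor
  · intro hf
    refine ⟨fun v hv => ?_, fun v hv => ?_⟩
    · have := hf v
      rwa [exp_nsmul_poleDiv_of_not_pole h m v hv] at this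
    · have := hf v
      rwa [exp_nsmul_poleDiv_of_pole h hx0 m v hv, ← zpow_natCast] at this
  · rintro ⟨h1, h2⟩ v
    rcases le_or_gt (v.adicValuation x) 1 with hv | hv
    · rw [exp_nsmul_poleDiv_of_not_pole h m v hv]
      exact h1 v hv
    · rw [exp_nsmul_poleDiv_of_pole h hx0 m v hv, ← zpow_natCast]
      exact h2 v hv

/-- a transcendental element has a pole. -/
theorem exists_pole (h : IsRRField K F) {x : F} (hx : Transcendental K x) :
    ∃ v : Place K F, 1 < v.adicValuation x := by
  by_contra hne
  push Not at hne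
  have hmem : x ∈ riemannRochSpace (0 : Divisor K F) := by
    intro v
    simpa using hne v
  obtain ⟨c, hc⟩ := (mem_riemannRochSpace_zero_iff h x).mp hmem
  exact hx (hc ▸ isAlgebraic_algebraMap c)

theorem degree_poleDiv_pos (h : IsRRField K F) {x : F} (hx : Transcendental K x) :
    0 < Divisor.degree (poleDiv h x) := by
  obtain ⟨v, hv⟩ := exists_pole h hx
  have h0 := degree_nonneg_of_nonneg h (poleDiv_nonneg h x)
  rcases h0.lt_or_eq with hlt | heq
  · exact hlt
  · exfalso
    have hz := eq_zero_of_nonneg_of_degree_eq_zero h (poleDiv_nonneg h x) heq.symm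
    have hord : v.ord x < 0 := (one_lt_adicValuation_iff v).mp hv
    have := congrArg (fun D : Divisor K F => D v) hz
    simp only [poleDiv_apply, Finsupp.coe_zero, Pi.zero_apply] at this
    rw [max_eq_left (by omega)] at this
    omega

/-- a function without poles outside the poles of `x` and vanishing at the poles is zero. -/
theorem eq_zero_of_intAway_of_infBd_neg (h : IsRRField K F) {x : F} (hx : Transcendental K x)
    {f : F} (hint : IntAway (K := K) x f) {d : ℤ} (hd : d < 0) (hbd : InfBd (K := K) x d f) :
    f = 0 := by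
  have hx0 : x ≠ 0 := fun h0 => hx (h0 ▸ isAlgebraic_zero)
  have hmem : f ∈ riemannRochSpace (-poleDiv h x) := by
    intro v
    rcases le_or_gt (v.adicValuation x) 1 with hv | hv
    · have hord : 0 ≤ v.ord x := (adicValuation_le_one_iff' v).mp hv
      rw [Finsupp.neg_apply, poleDiv_apply, max_eq_right (by omega), neg_zero, WithZero.exp_zero]
      exact hint v hv
    · have hord : v.ord x < 0 := (one_lt_adicValuation_iff v).mp hv
      rw [Finsupp.neg_apply, poleDiv_apply, max_eq_left (by omega), neg_neg]
      have h1 := (hbd.mono (show d ≤ -1 by omega)) v hv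
      rw [v.adicValuation_eq_exp_neg_ord hx0, ← WithZero.exp_zsmul] at h1
      simpa using h1
  have hdeg : Divisor.degree (-poleDiv h x) < 0 := by
    rw [map_neg]
    have := degree_poleDiv_pos h hx
    omega
  have := riemannRochSpace_eq_bot h hdeg
  rw [this, Submodule.mem_bot] at hmem
  exact hmem

/-! ### clearing the finite poles -/

theorem exists_const_adicValuation_sub_lt (h : IsRRField K F) {x : F} (hx : Transcendental K x)
    (v : Place K F) (hv : v.adicValuation x ≤ 1) :
    ∃ c : K, v.adicValuation (x - algebraMap K F c) ≤ exp (-1 : ℤ) := by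
  have hord : 0 ≤ v.ord x := (adicValuation_le_one_iff' v).mp hv
  obtain ⟨c, hc⟩ := exists_const_sub h v hord
  refine ⟨c, ?_⟩
  rcases hc with hc | hc
  · exact absurd (hc ▸ isAlgebraic_algebraMap c) hx
  · rw [v.adicValuation_le_exp_iff]
    right
    omega

theorem exists_aeval_mul_intAway (h : IsRRField K F) {x : F} (hx : Transcendental K x) (f : F) :
    ∃ s : K[X], s ≠ 0 ∧ IntAway (K := K) x (Polynomial.aeval x s * f) := by
  classical
  rcases eq_or_ne f 0 with rfl | hf0
  · exact ⟨1, one_ne_zero, by simpa using IntAway.zero (K := K) x⟩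
  set T : Finset (Place K F) := (finite_poles h f).toFinset with hT
  have hTmem : ∀ v, v ∈ T ↔ v.ord f < 0 := fun v => by simp [hT]
  let c : Place K F → K := fun v =>
    if hv : v.adicValuation x ≤ 1 then (exists_const_adicValuation_sub_lt h hx v hv).choose else 0
  have hc : ∀ v : Place K F, v.adicValuation x ≤ 1 →
      v.adicValuation (x - algebraMap K F (c v)) ≤ exp (-1 : ℤ) := by
    intro v hv
    simp only [c, dif_pos hv]
    exact (exists_const_adicValuation_sub_lt h hx v hv).choose_spec
  let m : Place K F → ℕ := fun v => (-v.ord f).toNat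
  refine ⟨∏ v ∈ T, (X - C (c v)) ^ m v, ?_, ?_⟩
  · exact Finset.prod_ne_zero_iff.mpr fun v _ => pow_ne_zero _ (X_sub_C_ne_zero _)
  · intro w hw
    have hfac : ∀ v : Place K F, w.adicValuation (x - algebraMap K F (c v)) ≤ 1 := by
      intro v
      refine (Valuation.map_sub _ _ _).trans (max_le hw ?_)
      exact w.adicValuation_algebraMap_le_one _
    have hval : w.adicValuation (Polynomial.aeval x (∏ v ∈ T, (X - C (c v)) ^ m v)) =
        ∏ v ∈ T, w.adicValuation (x - algebraMap K F (c v)) ^ m v := by
      rw [map_prod, map_prod]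
      refine Finset.prod_congr rfl fun v _ => ?_
      rw [map_pow, map_pow, map_sub, aeval_X, aeval_C]
    rw [map_mul, hval]
    by_cases hwT : w ∈ T
    · rw [← Finset.mul_prod_erase T _ hwT]
      have h1 : ∏ v ∈ T.erase w, w.adicValuation (x - algebraMap K F (c v)) ^ m v ≤ 1 :=
        Finset.prod_le_one' fun v _ => pow_le_one₀ zero_le (hfac v)
      have hordf : w.ord f < 0 := (hTmem w).mp hwT
      have h2 : w.adicValuation (x - algebraMap K F (c w)) ^ m w * w.adicValuation f ≤ 1 := by
        rw [w.adicValuation_eq_exp_neg_ord hf0]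
        calc w.adicValuation (x - algebraMap K F (c w)) ^ m w * exp (-w.ord f)
            ≤ exp (-1 : ℤ) ^ m w * exp (-w.ord f) := by
              gcongr
              exact hc w hw
          _ = 1 := by
              rw [← WithZero.exp_nsmul, ← WithZero.exp_add, ← WithZero.exp_zero]
              congr 1
              simp only [m, nsmul_eq_mul]
              rw [Int.toNat_of_nonneg (by omega)]
              omega
      calc (w.adicValuation (x - algebraMap K F (c w)) ^ m w *
            ∏ v ∈ T.erase w, w.adicValuation (x - algebraMap K F (c v)) ^ m v) * w.adicValuation f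
          = (w.adicValuation (x - algebraMap K F (c w)) ^ m w * w.adicValuation f) *
            ∏ v ∈ T.erase w, w.adicValuation (x - algebraMap K F (c v)) ^ m v :=
              mul_right_comm _ _ _
        _ ≤ 1 * 1 := by gcongr
        _ = 1 := one_mul _
    · have hordf : 0 ≤ w.ord f := by
        rw [hTmem] at hwT
        omega
      have h1 : ∏ v ∈ T, w.adicValuation (x - algebraMap K F (c v)) ^ m v ≤ 1 :=
        Finset.prod_le_one' fun v _ => pow_le_one₀ zero_le (hfac v)
      calc _ ≤ (1 : ℤᵐ⁰) * 1 := by
            gcongr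
            exact (adicValuation_le_one_iff' w).mpr hordf
        _ = 1 := one_mul _

theorem exists_infBd (h : IsRRField K F) {x : F} (hx : Transcendental K x) (f : F) :
    ∃ d : ℕ, InfBd (K := K) x d f := by
  classical
  have hx0 : x ≠ 0 := fun h0 => hx (h0 ▸ isAlgebraic_zero)
  set S : Finset (Place K F) := (finite_poles h x).toFinset with hS
  refine ⟨∑ v ∈ S, (-v.ord f).toNat, fun v hv => ?_⟩
  have hord : v.ord x < 0 := (one_lt_adicValuation_iff v).mp hv
  have hvS : v ∈ S := by simp [hS, hord]
  rw [adicValuation_le_zpow_iff v hx0]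
  by_cases hf : f = 0
  · exact Or.inl hf
  right
  have h1 : (-v.ord f).toNat ≤ ∑ w ∈ S, (-w.ord f).toNat :=
    Finset.single_le_sum (f := fun w : Place K F => (-w.ord f).toNat) (fun _ _ => Nat.zero_le _) hvS
  have h2 : -v.ord f ≤ ((-v.ord f).toNat : ℤ) := Int.self_le_toNat _
  have h3 : (((-v.ord f).toNat : ℕ) : ℤ) ≤ ((∑ w ∈ S, (-w.ord f).toNat : ℕ) : ℤ) := by
    exact_mod_cast h1
  have h4 : (0 : ℤ) ≤ ((∑ w ∈ S, (-w.ord f).toNat : ℕ) : ℤ) := Int.natCast_nonneg _
  nlinarith

end Fermat.Agent.RRHur
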