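import Mathlib
import Fermat.Agent.S24.Bridge
import Fermat.Agent.S24.Residue
import Fermat.Agent.S24.GaloisFibre

set_option autoImplicit false
set_option linter.unusedSectionVars false
set_option linter.style.haveILetI false

/-!
# Hurwitz block: the local trace lemma and the tame different exponent

`t ∈ F` transcendental over `K`, `F / K(t)` finite separable, `A = K[t]`, `B` = integral closure of
`A` in `F` (a Dedekind domain whose height one primes are the places `Q` of `F` with
`0 ≤ ord_Q t`).  No assumption on the characteristic.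

* `ord_trace_nonneg` (LT1): if `ord_P f ≥ -(e_P - 1)` at all zeros `P` of `t` (`e_P = ord_P t`),
  then `Tr_{F/K(t)} f` is regular at the zeros of `t`.
* `ord_ge_of_trace_regular` (LT2, tame exactness): if `e_P ≠ 0` in `K` and `Tr (g b)` is regular at
  `t = 0` for all `b ∈ B`, then `ord_P g ≥ -(e_P - 1)`.
* `algebraMap_trace_eq_of_adjoin_eq`: the trace only depends on the field `K(t)`.
* `mem_adjoin_of_ord_nonneg`: an element of `K(t)` without poles at the places `Q` with
  `0 ≤ ord_Q t` is a polynomial in `t`.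
-/

noncomputable section

open IntermediateField AlgebraicCurve IsDedekindDomain
open scoped IntermediateField.algebraAdjoinAdjoin

namespace Fermat.Agent.RRHur

variable {K F : Type*} [Field K] [Field F] [Algebra K F]

/-! ### the rings `A = K[t]` and `B` -/

section Setup

variable {t : F}

theorem isDedekindDomain_adjoin (ht : Transcendental K t) :
    IsDedekindDomain (Algebra.adjoin K {t}) := by
  haveI := Fermat.Agent.S24Fib.isPrincipalIdealRing_adjoin ht
  infer_instance

theorem isDedekindDomain_integralClosure (ht : Transcendental K t) [FiniteDimensional K⟮t⟯ F]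
    [Algebra.IsSeparable K⟮t⟯ F] :
    IsDedekindDomain (integralClosure (Algebra.adjoin K {t}) F) := by
  haveI := isDedekindDomain_adjoin ht
  exact integralClosure.isDedekindDomain (Algebra.adjoin K {t}) K⟮t⟯ F

theorem isFractionRing_integralClosure (t : F) [FiniteDimensional K⟮t⟯ F] :
    IsFractionRing (integralClosure (Algebra.adjoin K {t}) F) F :=
  integralClosure.isFractionRing_of_finite_extension K⟮t⟯ F

theorem finite_integralClosure (ht : Transcendental K t) [FiniteDimensional K⟮t⟯ F]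
    [Algebra.IsSeparable K⟮t⟯ F] :
    Module.Finite (Algebra.adjoin K {t}) (integralClosure (Algebra.adjoin K {t}) F) := by
  haveI := isDedekindDomain_adjoin ht
  exact IsIntegralClosure.finite (Algebra.adjoin K {t}) K⟮t⟯ F _

theorem isTorsionFree_integralClosure (t : F) :
    Module.IsTorsionFree (Algebra.adjoin K {t}) (integralClosure (Algebra.adjoin K {t}) F) := by
  haveI : Module.IsTorsionFree (Algebra.adjoin K {t}) F := by
    rw [Module.isTorsionFree_iff_algebraMap_injective]
    intro a b hab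
    exact Subtype.ext hab
  exact IsIntegralClosure.isTorsionFree (Algebra.adjoin K {t}) F

/-- the valuation ring of a place `Q` with `0 ≤ ord_Q t` contains `B`. -/
theorem integralClosure_mem (Q : Place K F) (hQ : 0 ≤ Q.ord t)
    (b : integralClosure (Algebra.adjoin K {t}) F) :
    algebraMap (integralClosure (Algebra.adjoin K {t}) F) F b ∈ Q.toValuationSubring :=
  Fermat.Agent.S24Bridge.mem_of_isIntegral Q
    (Fermat.Agent.S24Fib.algebraMap_adjoin_mem Q (Fermat.Agent.S24Res.mem_of_ord_nonneg Q hQ)) b.2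

/-- every place `Q` with `0 ≤ ord_Q t` comes from a height one prime of `B`. -/
theorem exists_heightOneSpectrum (ht : Transcendental K t) [FiniteDimensional K⟮t⟯ F]
    [Algebra.IsSeparable K⟮t⟯ F] (Q : Place K F) (hQ : 0 ≤ Q.ord t) :
    haveI := isDedekindDomain_integralClosure (F := F) ht
    haveI := isFractionRing_integralClosure (K := K) t
    ∃ P : HeightOneSpectrum (integralClosure (Algebra.adjoin K {t}) F),
      Q = Place.ofHeightOneSpectrum (K := K) (F := F) P := by
  haveI := isDedekindDomain_integralClosure (F := F) ht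
  haveI := isFractionRing_integralClosure (K := K) t
  exact Fermat.Agent.S24Bridge.exists_eq_ofHeightOneSpectrum Q (integralClosure_mem Q hQ)

/-- the place attached to a height one prime of `B` satisfies `0 ≤ ord t`. -/
theorem ord_t_nonneg_ofHeightOneSpectrum
    [IsDedekindDomain (integralClosure (Algebra.adjoin K {t}) F)]
    [IsFractionRing (integralClosure (Algebra.adjoin K {t}) F) F]
    (P : HeightOneSpectrum (integralClosure (Algebra.adjoin K {t}) F)) :
    0 ≤ (Place.ofHeightOneSpectrum (K := K) (F := F) P).ord t := by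
  apply Fermat.Agent.S24Res.ord_nonneg_of_mem
  rw [Fermat.Agent.S24Bridge.mem_ofHeightOneSpectrum_iff]
  exact P.valuation_le_one (K := F)
    (algebraMap (Algebra.adjoin K {t}) (integralClosure (Algebra.adjoin K {t}) F)
      (Fermat.Agent.S24Fib.tA K t))

/-- an element of `F` without poles at the places `Q` with `0 ≤ ord_Q t` lies in `B`. -/
theorem mem_integralClosure_of_forall_mem (ht : Transcendental K t) [FiniteDimensional K⟮t⟯ F]
    [Algebra.IsSeparable K⟮t⟯ F] (f : F)
    (hf : ∀ Q : Place K F, 0 ≤ Q.ord t → f ∈ Q.toValuationSubring) :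
    f ∈ integralClosure (Algebra.adjoin K {t}) F := by
  haveI := isDedekindDomain_integralClosure (F := F) ht
  haveI := isFractionRing_integralClosure (K := K) t
  have h := HeightOneSpectrum.mem_integers_of_valuation_le_one
    (R := integralClosure (Algebra.adjoin K {t}) F) F f (fun P => by
      rw [← Fermat.Agent.S24Bridge.mem_ofHeightOneSpectrum_iff (K := K)]
      exact hf _ (ord_t_nonneg_ofHeightOneSpectrum P))
  obtain ⟨b, rfl⟩ := h
  exact b.2

end Setup

/-! ### LT1: the local trace lemma -/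

section LT1

variable {t : F}

/-- elements of `A = K[t]` not divisible by `t` are units at the zeros of `t`. -/
theorem exists_isUnit_of_not_dvd (P : Place K F) (hP : 0 < P.ord t)
    (s : Algebra.adjoin K {t}) (hs : ¬ Fermat.Agent.S24Fib.tA K t ∣ s) :
    ∃ u : P.toValuationSubring, IsUnit u ∧ (u : F) = (s : F) := by
  have htP : t ∈ P.toValuationSubring := Fermat.Agent.S24Res.mem_of_ord_nonneg P hP.le
  have hsP : (s : F) ∈ P.toValuationSubring := Fermat.Agent.S24Fib.algebraMap_adjoin_mem P htP s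
  refine ⟨⟨(s : F), hsP⟩, ?_, rfl⟩
  obtain ⟨c, hc⟩ := Fermat.Agent.S24Fib.surjective_mk_span_tA (K := K) t
    (Ideal.Quotient.mk _ s)
  rw [RingHom.comp_apply, Ideal.Quotient.eq, Ideal.mem_span_singleton] at hc
  obtain ⟨s', hs'⟩ := hc
  have hc0 : c ≠ 0 := by
    rintro rfl
    apply hs
    refine ⟨-s', ?_⟩
    rw [map_zero, zero_sub] at hs'
    rw [mul_neg, ← hs', neg_neg]
  have ht0 : t ≠ 0 := by
    rintro rfl
    simp at hP
  have hs'P : (s' : F) ∈ P.toValuationSubring :=
    Fermat.Agent.S24Fib.algebraMap_adjoin_mem P htP s'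
  have hsF : (s : F) = algebraMap K F c - t * (s' : F) := by
    have h := congrArg (Subtype.val) hs'
    have h' : algebraMap K F c - (s : F) = t * (s' : F) := h
    rw [← h']; ring
  by_contra hnu
  have hmem : (⟨(s : F), hsP⟩ : P.toValuationSubring) ∈
      IsLocalRing.maximalIdeal P.toValuationSubring := hnu
  have htm : (⟨t, htP⟩ : P.toValuationSubring) ∈
      IsLocalRing.maximalIdeal P.toValuationSubring := by
    rw [Fermat.Agent.S24Res.mem_maximalIdeal_iff_ord_pos P
      (fun h => ht0 (congrArg Subtype.val h))]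
    exact hP
  have hcm : algebraMap K P.toValuationSubring c ∈
      IsLocalRing.maximalIdeal P.toValuationSubring := by
    have h1 : algebraMap K P.toValuationSubring c
        = ⟨(s : F), hsP⟩ + ⟨t, htP⟩ * ⟨(s' : F), hs'P⟩ := by
      apply Subtype.ext
      show algebraMap K F c = (s : F) + t * (s' : F)
      rw [hsF]; ring
    rw [h1]
    exact Ideal.add_mem _ hmem (Ideal.mul_mem_right _ _ htm)
  exact hcm ((isUnit_iff_ne_zero.mpr hc0).map (algebraMap K P.toValuationSubring))

/-- (LT1, any characteristic) the local trace lemma at the zeros of `t`: if `ord_P f ≥ 1 - e_P`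
at all zeros `P` of `t` (`e_P = ord_P t`), then the trace of `f` is regular at the zeros of `t`. -/
theorem ord_trace_nonneg (t : F) (ht : Transcendental K t) [FiniteDimensional K⟮t⟯ F]
    [Algebra.IsSeparable K⟮t⟯ F] (f : F)
    (hf : ∀ P : Place K F, 0 < P.ord t → 1 - P.ord t ≤ P.ord f) :
    ∀ P : Place K F, 0 < P.ord t → 0 ≤ P.ord (algebraMap K⟮t⟯ F (Algebra.trace K⟮t⟯ F f)) := by
  intro P hP
  haveI := isDedekindDomain_adjoin ht
  haveI := isDedekindDomain_integralClosure (F := F) ht
  haveI := isFractionRing_integralClosure (K := K) t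
  haveI := finite_integralClosure (F := F) ht
  haveI := isTorsionFree_integralClosure (K := K) (F := F) t
  haveI := Fermat.Agent.S24Fib.isMaximal_span_tA ht
  have ht0 : t ≠ 0 := fun h => ht (h ▸ isAlgebraic_zero)
  rcases eq_or_ne f 0 with rfl | hf0
  · simp
  -- Step 1: `a f = b` with `a ∈ A`, `b ∈ B`
  have halg : IsAlgebraic (Algebra.adjoin K {t}) f :=
    (IsFractionRing.isAlgebraic_iff (Algebra.adjoin K {t}) K⟮t⟯ F).mpr
      (Algebra.IsAlgebraic.isAlgebraic f)
  obtain ⟨a, ha0, hab⟩ := halg.exists_integral_multiple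
  -- Step 2: `a = t ^ k * s` with `t ∤ s`
  obtain ⟨k, s, hs, has⟩ := WfDvdMonoid.max_power_factor ha0 (Fermat.Agent.S24Fib.irreducible_tA ht)
  have hs0 : s ≠ 0 := by
    rintro rfl
    exact hs (dvd_zero _)
  have hsF0 : (s : F) ≠ 0 := fun h => hs0 (Subtype.ext h)
  have haF : (a : F) = t ^ k * (s : F) := by
    rw [has]; rfl
  -- Step 3: `g' = t s f ∈ B`
  have hg'mem : ∀ Q : Place K F, 0 ≤ Q.ord t → t * (s : F) * f ∈ Q.toValuationSubring := by
    intro Q hQ
    have htQ : t ∈ Q.toValuationSubring := Fermat.Agent.S24Res.mem_of_ord_nonneg Q hQ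
    have hsQ : (s : F) ∈ Q.toValuationSubring := Fermat.Agent.S24Fib.algebraMap_adjoin_mem Q htQ s
    rcases hQ.lt_or_eq with hpos | hzero
    · have h1 : 0 ≤ Q.ord (t * f) := by
        rw [Place.ord_mul Q ht0 hf0]
        have := hf Q hpos
        omega
      have h2 : t * (s : F) * f = (s : F) * (t * f) := by ring
      rw [h2]
      exact mul_mem hsQ (Fermat.Agent.S24Res.mem_of_ord_nonneg Q h1)
    · have htinv : t⁻¹ ∈ Q.toValuationSubring := by
        apply Fermat.Agent.S24Res.mem_of_ord_nonneg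
        rw [Place.ord_inv, ← hzero]; simp
      have hbQ : a • f ∈ Q.toValuationSubring :=
        integralClosure_mem Q hQ ⟨a • f, hab⟩
      have h2 : t * (s : F) * f = t * ((t⁻¹) ^ k * (a • f)) := by
        rw [Algebra.smul_def]
        show _ = t * ((t⁻¹) ^ k * ((a : F) * f))
        rw [haF, inv_pow]
        field_simp
      rw [h2]
      exact mul_mem htQ (mul_mem (pow_mem htinv k) hbQ)
  have hg'B : t * (s : F) * f ∈ integralClosure (Algebra.adjoin K {t}) F :=
    mem_integralClosure_of_forall_mem ht _ hg'mem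
  set β : integralClosure (Algebra.adjoin K {t}) F := ⟨t * (s : F) * f, hg'B⟩ with hβ
  have hβ0 : β ≠ 0 := by
    intro h
    have h' : t * (s : F) * f = 0 := congrArg Subtype.val h
    exact mul_ne_zero (mul_ne_zero ht0 hsF0) hf0 h'
  -- Step 4: `β` lies in the radical of `t B`
  have hrad : β ∈ (Ideal.map (algebraMap (Algebra.adjoin K {t})
      (integralClosure (Algebra.adjoin K {t}) F))
        (Ideal.span {Fermat.Agent.S24Fib.tA K t})).radical := by
    rw [Ideal.radical_eq_sInf, Ideal.mem_sInf]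
    rintro J ⟨hJle, hJprime⟩
    have htJ : algebraMap (Algebra.adjoin K {t}) (integralClosure (Algebra.adjoin K {t}) F)
        (Fermat.Agent.S24Fib.tA K t) ∈ J :=
      hJle (Ideal.mem_map_of_mem _ (Ideal.subset_span rfl))
    have htB0 : algebraMap (Algebra.adjoin K {t}) (integralClosure (Algebra.adjoin K {t}) F)
        (Fermat.Agent.S24Fib.tA K t) ≠ 0 := by
      intro h
      exact ht0 (congrArg Subtype.val h)
    have hJne : J ≠ ⊥ := by
      rintro rfl
      exact htB0 htJ
    set J' : HeightOneSpectrum (integralClosure (Algebra.adjoin K {t}) F) := ⟨J, hJprime, hJne⟩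
    have hordt : 0 < (Place.ofHeightOneSpectrum (K := K) (F := F) J').ord t :=
      (Fermat.Agent.S24Bridge.mem_asIdeal_iff_ord_pos (K := K) (F := F) J' _ htB0).mp htJ
    show β ∈ J'.asIdeal
    rw [Fermat.Agent.S24Bridge.mem_asIdeal_iff_ord_pos (K := K) (F := F) J' β hβ0]
    show 0 < (Place.ofHeightOneSpectrum (K := K) (F := F) J').ord (t * (s : F) * f)
    have h2 : t * (s : F) * f = (s : F) * (t * f) := by ring
    rw [h2, Place.ord_mul _ hsF0 (mul_ne_zero ht0 hf0), Place.ord_mul _ ht0 hf0]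
    have h3 := hf _ hordt
    have h4 : 0 ≤ (Place.ofHeightOneSpectrum (K := K) (F := F) J').ord (s : F) :=
      Fermat.Agent.S24Res.ord_nonneg_of_mem _
        (Fermat.Agent.S24Fib.algebraMap_adjoin_mem _
          (Fermat.Agent.S24Res.mem_of_ord_nonneg _ hordt.le) s)
    omega
  -- Step 5: the trace of `β` is divisible by `t`
  have htr : Algebra.intTrace (Algebra.adjoin K {t}) (integralClosure (Algebra.adjoin K {t}) F) β
      ∈ Ideal.span {Fermat.Agent.S24Fib.tA K t} := by
    rw [← Ideal.Quotient.eq_zero_iff_mem, ← Algebra.trace_quotient_eq_of_isDedekindDomain,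
      ← isNilpotent_iff_eq_zero]
    apply Algebra.isNilpotent_trace_of_isNilpotent
    obtain ⟨n, hn⟩ := hrad
    exact ⟨n, by rw [← map_pow, Ideal.Quotient.eq_zero_iff_mem]; exact hn⟩
  rw [Ideal.mem_span_singleton] at htr
  obtain ⟨a', ha'⟩ := htr
  -- Step 6: `Tr f = a' / s`
  have h6 := Algebra.algebraMap_intTrace (A := Algebra.adjoin K {t}) (K := K⟮t⟯) (L := F) β
  have hβF : algebraMap (integralClosure (Algebra.adjoin K {t}) F) F β
      = (algebraMap (Algebra.adjoin K {t}) K⟮t⟯ (Fermat.Agent.S24Fib.tA K t * s)) • f := by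
    rw [Algebra.smul_def, ← IsScalarTower.algebraMap_apply]
    rfl
  rw [hβF, map_smul, ha', smul_eq_mul, map_mul, map_mul, mul_assoc] at h6
  have htK0 : algebraMap (Algebra.adjoin K {t}) K⟮t⟯ (Fermat.Agent.S24Fib.tA K t) ≠ 0 := by
    intro h
    have := congrArg (algebraMap K⟮t⟯ F) h
    rw [← IsScalarTower.algebraMap_apply, map_zero] at this
    exact ht0 this
  have h7 := mul_left_cancel₀ htK0 h6
  have h8 := congrArg (algebraMap K⟮t⟯ F) h7
  rw [map_mul, ← IsScalarTower.algebraMap_apply, ← IsScalarTower.algebraMap_apply] at h8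
  have h9 : (a' : F) = (s : F) * algebraMap K⟮t⟯ F (Algebra.trace K⟮t⟯ F f) := h8
  obtain ⟨u, hu, hus⟩ := exists_isUnit_of_not_dvd P hP s hs
  have htP : t ∈ P.toValuationSubring := Fermat.Agent.S24Res.mem_of_ord_nonneg P hP.le
  have ha'P : (a' : F) ∈ P.toValuationSubring := Fermat.Agent.S24Fib.algebraMap_adjoin_mem P htP a'
  apply Fermat.Agent.S24Res.ord_nonneg_of_mem
  obtain ⟨w, hw⟩ := hu.exists_right_inv
  have hw' : (s : F) * (w : F) = 1 := by
    rw [← hus]
    exact congrArg Subtype.val hw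
  have h10 : algebraMap K⟮t⟯ F (Algebra.trace K⟮t⟯ F f) = (w : F) * (a' : F) := by
    rw [h9, ← mul_assoc, mul_comm (w : F), hw', one_mul]
  rw [h10]
  exact mul_mem w.2 ha'P

end LT1

/-! ### `dim_K B / P ^ e = e` -/

section QuotPow

variable {B : Type*} [CommRing B] [IsDedekindDomain B] [Algebra K B]

/-- for a prime `P` of a Dedekind `K`-algebra with residue field `K`: `dim_K B / P ^ e = e`. -/
theorem rank_quotient_pow (P : Ideal B) [hPp : P.IsPrime] (hP : P ≠ ⊥)
    (hK : ∀ d : B, ∃ c : K, d - algebraMap K B c ∈ P) (e : ℕ) :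
    Module.rank K (B ⧸ P ^ e) = e := by
  induction e with
  | zero =>
    rw [pow_zero, Ideal.one_eq_top]
    have : Subsingleton (B ⧸ (⊤ : Ideal B)) := Ideal.Quotient.subsingleton_iff.mpr rfl
    simp
  | succ e ih =>
    set q : (B ⧸ P ^ (e + 1)) →ₗ[K] (B ⧸ P ^ e) :=
      (Ideal.Quotient.factorₐ K (Ideal.pow_le_pow_right (Nat.le_succ e))).toLinearMap with hq
    have hsurj : Function.Surjective q :=
      Ideal.Quotient.factor_surjective (Ideal.pow_le_pow_right (Nat.le_succ e))
    have h1 := LinearMap.rank_range_add_rank_ker q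
    rw [LinearMap.range_eq_top.mpr hsurj, rank_top, ih] at h1
    have hker : Module.rank K (LinearMap.ker q) = 1 := by
      rw [rank_submodule_eq_one_iff]
      obtain ⟨a, ha, ha'⟩ := Ideal.exists_mem_pow_notMem_pow_succ P hP hPp.ne_top e
      refine ⟨Ideal.Quotient.mk _ a, ?_, ?_, ?_⟩
      · rw [LinearMap.mem_ker]
        show Ideal.Quotient.mk (P ^ e) a = 0
        rw [Ideal.Quotient.eq_zero_iff_mem]
        exact ha
      · rw [Ne, Ideal.Quotient.eq_zero_iff_mem]
        exact ha'
      · intro x hx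
        obtain ⟨c, rfl⟩ := Ideal.Quotient.mk_surjective x
        have hc : c ∈ P ^ e := by
          rw [LinearMap.mem_ker] at hx
          have hx' : Ideal.Quotient.mk (P ^ e) c = 0 := hx
          rwa [Ideal.Quotient.eq_zero_iff_mem] at hx'
        obtain ⟨d, e', he', hde⟩ := Ideal.exists_mul_add_mem_pow_succ hP a c ha ha' hc
        obtain ⟨κ, hκ⟩ := hK d
        rw [Submodule.mem_span_singleton]
        refine ⟨κ, ?_⟩
        rw [Algebra.smul_def]
        show Ideal.Quotient.mk (P ^ (e + 1)) (algebraMap K B κ) * Ideal.Quotient.mk _ a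
          = Ideal.Quotient.mk _ c
        rw [← map_mul, Ideal.Quotient.eq]
        have h2 : algebraMap K B κ * a - c = -(a * (d - algebraMap K B κ)) - e' := by
          rw [← hde]; ring
        rw [h2]
        refine Ideal.sub_mem _ (neg_mem ?_) he'
        rw [pow_succ]
        exact Ideal.mul_mem_mul ha hκ
    rw [hker] at h1
    rw [← h1]
    push_cast
    rfl

theorem finrank_quotient_pow (P : Ideal B) [hPp : P.IsPrime] (hP : P ≠ ⊥)
    (hK : ∀ d : B, ∃ c : K, d - algebraMap K B c ∈ P) (e : ℕ) :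
    Module.finrank K (B ⧸ P ^ e) = e :=
  Module.finrank_eq_of_rank_eq (rank_quotient_pow P hP hK e)

theorem finite_quotient_pow (P : Ideal B) [hPp : P.IsPrime] (hP : P ≠ ⊥)
    (hK : ∀ d : B, ∃ c : K, d - algebraMap K B c ∈ P) (e : ℕ) :
    Module.Finite K (B ⧸ P ^ e) := by
  rw [← Module.rank_lt_aleph0_iff, rank_quotient_pow P hP hK e]
  exact Cardinal.natCast_lt_aleph0

end QuotPow

/-! ### the trace of a CRT idempotent -/

section TraceIdempotent

variable {A B : Type*} [CommRing A] [CommRing B] [Algebra A B] [Algebra K A] [Algebra K B]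
  [IsScalarTower K A B]

/-- quotients of `B` by ideals containing `p B` are finite over `K` when `A / p = K`. -/
theorem finite_quotient_of_map_le [Module.Finite A B] (p : Ideal A)
    (hpK : ∀ a : A, ∃ c : K, a - algebraMap K A c ∈ p) (J : Ideal B)
    (hJ : p.map (algebraMap A B) ≤ J) : Module.Finite K (B ⧸ J) := by
  classical
  obtain ⟨S, hS⟩ := (Module.Finite.fg_top : (⊤ : Submodule A B).FG)
  refine ⟨⟨S.image (Ideal.Quotient.mk J), ?_⟩⟩
  rw [eq_top_iff]
  rintro x -
  obtain ⟨x, rfl⟩ := Ideal.Quotient.mk_surjective x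
  have hx : x ∈ Submodule.span A (S : Set B) := by rw [hS]; trivial
  induction hx using Submodule.span_induction with
  | mem y hy =>
    apply Submodule.subset_span
    rw [Finset.coe_image]
    exact ⟨y, hy, rfl⟩
  | zero => rw [map_zero]; exact Submodule.zero_mem _
  | add y z _ _ hy hz => rw [map_add]; exact Submodule.add_mem _ hy hz
  | smul a y _ hy =>
    obtain ⟨c, hc⟩ := hpK a
    have h1 : Ideal.Quotient.mk J (a • y) = c • Ideal.Quotient.mk J y := by
      rw [Algebra.smul_def, Algebra.smul_def]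
      show _ = Ideal.Quotient.mk J (algebraMap K B c) * _
      rw [← map_mul, Ideal.Quotient.eq, ← sub_mul, IsScalarTower.algebraMap_apply K A B, ← map_sub]
      exact Ideal.mul_mem_right _ _ (hJ (Ideal.mem_map_of_mem _ hc))
    rw [h1]
    exact Submodule.smul_mem _ _ hy

variable [IsDedekindDomain A] [IsDomain B] [Module.IsTorsionFree A B] [Module.Finite A B]
  [IsIntegrallyClosed B]

/-- the trace of a "CRT idempotent" `z ≡ 1 mod I`, `z ≡ 0 mod J` (`I J = p B`) is
`dim_K (B / I)` modulo `p`. -/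
theorem intTrace_notMem_of_isCoprime (p : Ideal A) [p.IsMaximal]
    (hpK : ∀ a : A, ∃ c : K, a - algebraMap K A c ∈ p)
    (I J : Ideal B) (hIJ : IsCoprime I J) (hmul : I * J = p.map (algebraMap A B))
    (z : B) (hzJ : z ∈ J) (hzI : z - 1 ∈ I) (he : ((Module.finrank K (B ⧸ I) : ℕ) : K) ≠ 0) :
    Algebra.intTrace A B z ∉ p := by
  intro hmem
  have hinf : p.map (algebraMap A B) = I ⊓ J := by
    rw [← hmul, Ideal.mul_eq_inf_of_isCoprime hIJ]
  have : Module.Finite K (B ⧸ I) := finite_quotient_of_map_le p hpK I (hinf.trans_le inf_le_left)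
  have : Module.Finite K (B ⧸ J) := finite_quotient_of_map_le p hpK J (hinf.trans_le inf_le_right)
  have h1 := Algebra.trace_quotient_eq_of_isDedekindDomain B p z
  rw [Ideal.Quotient.eq_zero_iff_mem.mpr hmem] at h1
  let φ : K →+* A ⧸ p := (Ideal.Quotient.mk p).comp (algebraMap K A)
  have hφ : Function.Bijective φ := ⟨φ.injective, fun x => by
      obtain ⟨a, rfl⟩ := Ideal.Quotient.mk_surjective x
      obtain ⟨c, hc⟩ := hpK a
      refine ⟨c, ?_⟩
      show Ideal.Quotient.mk p (algebraMap K A c) = _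
      rw [eq_comm, Ideal.Quotient.eq]
      exact hc⟩
  let e₁ : A ⧸ p ≃+* K := (RingEquiv.ofBijective φ hφ).symm
  let e₂ : (B ⧸ p.map (algebraMap A B)) ≃+* (B ⧸ I) × (B ⧸ J) :=
    (Ideal.quotEquivOfEq hinf).trans (Ideal.quotientInfEquivQuotientProd I J hIJ)
  have he₂ : ∀ x : B, e₂ (Ideal.Quotient.mk _ x)
      = (Ideal.Quotient.mk I x, Ideal.Quotient.mk J x) := fun x => rfl
  have hcomp : (algebraMap K ((B ⧸ I) × (B ⧸ J))).comp (e₁ : A ⧸ p →+* K)
      = (e₂ : _ →+* _).comp (algebraMap (A ⧸ p) (B ⧸ p.map (algebraMap A B))) := by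
    refine RingHom.ext fun x => ?_
    obtain ⟨c, rfl⟩ := e₁.symm.surjective x
    simp only [RingHom.comp_apply, RingEquiv.coe_toRingHom, RingEquiv.apply_symm_apply]
    show _ = e₂ (algebraMap (A ⧸ p) (B ⧸ p.map (algebraMap A B))
      (Ideal.Quotient.mk p (algebraMap K A c)))
    rw [Ideal.Quotient.algebraMap_quotient_map_quotient, he₂,
      ← IsScalarTower.algebraMap_apply K A B]
    rfl
  have h2 := Algebra.trace_eq_of_equiv_equiv e₁ e₂ hcomp (Ideal.Quotient.mk _ z)
  rw [h1, he₂] at h2
  have hz1 : Ideal.Quotient.mk I z = 1 := by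
    rw [← map_one (Ideal.Quotient.mk I), Ideal.Quotient.eq]
    exact hzI
  have hz0 : Ideal.Quotient.mk J z = 0 := Ideal.Quotient.eq_zero_iff_mem.mpr hzJ
  rw [hz1, hz0, Algebra.trace_prod_apply] at h2
  have h3 : Algebra.trace K (B ⧸ I) 1 = (Module.finrank K (B ⧸ I) : K) := by
    have := Algebra.trace_algebraMap (R := K) (S := B ⧸ I) 1
    rw [map_one] at this
    rw [this]
    simp
  rw [h3, map_zero, add_zero] at h2
  have h4 := congrArg e₁ h2
  rw [map_zero, RingEquiv.apply_symm_apply] at h4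
  exact he h4.symm

end TraceIdempotent

/-! ### the different and the trace dual -/

section Dual

open nonZeroDivisors

attribute [local instance] FractionRing.liftAlgebra FractionRing.isScalarTower_liftAlgebra

variable (A Kf : Type*) {L B : Type*} [CommRing A] [Field Kf] [CommRing B] [Field L]
variable [Algebra A Kf] [Algebra B L] [Algebra A B] [Algebra Kf L] [Algebra A L]
variable [IsScalarTower A Kf L] [IsScalarTower A B L]
variable [IsFractionRing A Kf] [IsFractionRing B L] [IsDedekindDomain A] [IsDedekindDomain B]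
variable [FiniteDimensional Kf L] [Algebra.IsSeparable Kf L] [IsIntegralClosure B A L]
variable [Module.IsTorsionFree A B]

include Kf L in
theorem isSeparable_fractionRing : Algebra.IsSeparable (FractionRing A) (FractionRing B) := by
  have H : RingHom.comp (algebraMap (FractionRing A) (FractionRing B))
      ↑(FractionRing.algEquiv A Kf).symm.toRingEquiv =
        RingHom.comp ↑(FractionRing.algEquiv B L).symm.toRingEquiv (algebraMap Kf L) := by
    apply IsLocalization.ringHom_ext A⁰
    ext
    simp only [RingHom.coe_comp, RingHom.coe_coe,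
      AlgEquiv.coe_ringEquiv, Function.comp_apply, AlgEquiv.commutes,
      ← IsScalarTower.algebraMap_apply]
    rw [IsScalarTower.algebraMap_apply A B L, AlgEquiv.commutes, ← IsScalarTower.algebraMap_apply]
  exact Algebra.IsSeparable.of_equiv_equiv _ _ H

/-- if `I ∤ Diff(B/A)` and `Tr (x b) ∈ A` for all `b ∈ B`, then `x y ∈ B` for some `y ∉ I`. -/
theorem exists_notMem_mul_mem (I : Ideal B) (hI : ¬ I ∣ differentIdeal A B) (x : L)
    (hx : ∀ b : B, Algebra.trace Kf L (x * algebraMap B L b) ∈ (algebraMap A Kf).range) :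
    ∃ y : B, y ∉ I ∧ x * algebraMap B L y ∈ (algebraMap B L).range := by
  have hxd : x ∈ FractionalIdeal.dual A Kf (1 : FractionalIdeal B⁰ L) := by
    rw [FractionalIdeal.mem_dual (one_ne_zero' (FractionalIdeal B⁰ L))]
    intro a ha
    obtain ⟨b, rfl⟩ := (FractionalIdeal.mem_one_iff (S := B⁰) (P := L)).mp ha
    rw [Algebra.traceForm_apply]
    exact hx b
  rw [Ideal.dvd_iff_le] at hI
  obtain ⟨y, hyD, hyI⟩ := SetLike.not_le_iff_exists.mp hI
  refine ⟨y, hyI, ?_⟩
  have hy : algebraMap B L y ∈ (↑(differentIdeal A B) : FractionalIdeal B⁰ L) :=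
    FractionalIdeal.mem_coeIdeal_of_mem _ hyD
  rw [coeIdeal_differentIdeal A Kf] at hy
  have h := FractionalIdeal.mul_mem_mul hxd hy
  rw [mul_inv_cancel₀ (FractionalIdeal.dual_ne_zero A Kf (one_ne_zero' (FractionalIdeal B⁰ L)))] at h
  obtain ⟨b, hb⟩ := (FractionalIdeal.mem_one_iff (S := B⁰) (P := L)).mp h
  exact ⟨b, hb⟩

end Dual

/-! ### LT2: the tame different exponent -/

section LT2

variable {t : F}

/-- membership in powers of a height one prime in terms of `ord`. -/
theorem mem_pow_iff_le_ord {B : Type*} [CommRing B] [IsDedekindDomain B] [Algebra B F]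
    [IsFractionRing B F] [Algebra K B] [IsScalarTower K B F]
    (𝔓 : HeightOneSpectrum B) (y : B) (hy : y ≠ 0) (n : ℕ) :
    y ∈ 𝔓.asIdeal ^ n ↔
      (n : ℤ) ≤ (Place.ofHeightOneSpectrum (K := K) (F := F) 𝔓).ord (algebraMap B F y) := by
  rw [← HeightOneSpectrum.intValuation_le_pow_iff_mem,
    Fermat.Agent.S24Bridge.ord_ofHeightOneSpectrum, HeightOneSpectrum.valuation_of_algebraMap]
  obtain ⟨m, hm⟩ : ∃ m : ℤ, 𝔓.intValuation y = WithZero.exp m :=
    ⟨WithZero.log (𝔓.intValuation y),
      (WithZero.exp_log (𝔓.intValuation_ne_zero y hy)).symm⟩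
  rw [hm, WithZero.log_exp, WithZero.exp_le_exp]
  omega

/-- an element of `K(t)` regular at a zero of `t` has a denominator prime to `t`. -/
theorem exists_not_dvd_mul_mem (ht : Transcendental K t) (P : Place K F) (hP : 0 < P.ord t)
    (c : K⟮t⟯) (hc : 0 ≤ P.ord (algebraMap K⟮t⟯ F c)) :
    ∃ s : Algebra.adjoin K {t}, ¬ Fermat.Agent.S24Fib.tA K t ∣ s ∧
      algebraMap (Algebra.adjoin K {t}) K⟮t⟯ s * c ∈ (algebraMap (Algebra.adjoin K {t}) K⟮t⟯).range := by
  haveI := Fermat.Agent.S24Fib.isPrincipalIdealRing_adjoin ht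
  have ht0 : t ≠ 0 := fun h => ht (h ▸ isAlgebraic_zero)
  obtain ⟨n, d, hrel, hnd⟩ := IsFractionRing.exists_reduced_fraction (A := Algebra.adjoin K {t}) c
  have hd0 : (d : Algebra.adjoin K {t}) ≠ 0 := nonZeroDivisors.coe_ne_zero d
  have hdc : algebraMap (Algebra.adjoin K {t}) K⟮t⟯ d * c
      = algebraMap (Algebra.adjoin K {t}) K⟮t⟯ n := by
    rw [← hnd, mul_comm, IsLocalization.mk'_spec]
  refine ⟨d, ?_, ?_⟩
  · intro hdvd
    have hn : ¬ Fermat.Agent.S24Fib.tA K t ∣ n := by
      intro hn
      exact (Fermat.Agent.S24Fib.irreducible_tA ht).not_isUnit (hrel hn hdvd)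
    obtain ⟨d', hd'⟩ := hdvd
    have htP : t ∈ P.toValuationSubring := Fermat.Agent.S24Res.mem_of_ord_nonneg P hP.le
    have hd'0 : (d' : F) ≠ 0 := by
      intro h
      apply hd0
      rw [hd', show d' = 0 from Subtype.ext h, mul_zero]
    have hdF : ((d : Algebra.adjoin K {t}) : F) = t * (d' : F) := by
      rw [hd']; rfl
    have hord_d : 0 < P.ord ((d : Algebra.adjoin K {t}) : F) := by
      rw [hdF, Place.ord_mul P ht0 hd'0]
      have := Fermat.Agent.S24Res.ord_nonneg_of_mem P
        (Fermat.Agent.S24Fib.algebraMap_adjoin_mem P htP d')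
      have h2 : P.ord (algebraMap (Algebra.adjoin K {t}) F d') = P.ord (d' : F) := rfl
      omega
    obtain ⟨u, hu, hun⟩ := exists_isUnit_of_not_dvd P hP n hn
    have hord_n : P.ord (n : F) = 0 := by
      rw [← hun]
      exact Fermat.Agent.S24Res.ord_eq_zero_of_isUnit P hu
    have hn0 : (n : F) ≠ 0 := by
      intro h
      apply hn
      rw [show n = 0 from Subtype.ext h]
      exact dvd_zero _
    have hF : ((d : Algebra.adjoin K {t}) : F) * algebraMap K⟮t⟯ F c = (n : F) := by
      have := congrArg (algebraMap K⟮t⟯ F) hdc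
      rw [map_mul, ← IsScalarTower.algebraMap_apply, ← IsScalarTower.algebraMap_apply] at this
      exact this
    have hc0 : algebraMap K⟮t⟯ F c ≠ 0 := by
      intro h
      rw [h, mul_zero] at hF
      exact hn0 hF.symm
    have hdF0 : ((d : Algebra.adjoin K {t}) : F) ≠ 0 := fun h => hd0 (Subtype.ext h)
    have := congrArg P.ord hF
    rw [Place.ord_mul P hdF0 hc0, hord_n] at this
    omega
  · exact ⟨n, hdc.symm⟩

/-- a common denominator prime to `t` for the traces `Tr (g b)`, `b ∈ B`. -/
theorem exists_not_dvd_forall_trace_mem (ht : Transcendental K t) [FiniteDimensional K⟮t⟯ F]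
    [Algebra.IsSeparable K⟮t⟯ F] (P : Place K F) (hP : 0 < P.ord t) (g : F)
    (hg : ∀ b : integralClosure (Algebra.adjoin K {t}) F,
      0 ≤ P.ord (algebraMap K⟮t⟯ F (Algebra.trace K⟮t⟯ F (g * (b : F))))) :
    ∃ s : Algebra.adjoin K {t}, ¬ Fermat.Agent.S24Fib.tA K t ∣ s ∧
      ∀ b : integralClosure (Algebra.adjoin K {t}) F,
        Algebra.trace K⟮t⟯ F (((s : F) * g) * (b : F)) ∈
          (algebraMap (Algebra.adjoin K {t}) K⟮t⟯).range := by
  classical
  haveI := Fermat.Agent.S24Fib.isPrincipalIdealRing_adjoin ht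
  haveI := finite_integralClosure (F := F) ht
  obtain ⟨S, hS⟩ := (Module.Finite.fg_top :
    (⊤ : Submodule (Algebra.adjoin K {t}) (integralClosure (Algebra.adjoin K {t}) F)).FG)
  have h := fun b : integralClosure (Algebra.adjoin K {t}) F =>
    exists_not_dvd_mul_mem ht P hP (Algebra.trace K⟮t⟯ F (g * (b : F))) (hg b)
  choose σ hσ1 hσ2 using h
  have hprime : Prime (Fermat.Agent.S24Fib.tA K t) := (Fermat.Agent.S24Fib.irreducible_tA ht).prime
  refine ⟨∏ b ∈ S, σ b, ?_, ?_⟩
  · rw [Prime.dvd_finsetProd_iff hprime]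
    rintro ⟨b, -, hb⟩
    exact hσ1 b hb
  · have key : ∀ (s : Algebra.adjoin K {t}) (x : F),
        Algebra.trace K⟮t⟯ F (((s : F) * g) * x)
          = algebraMap (Algebra.adjoin K {t}) K⟮t⟯ s * Algebra.trace K⟮t⟯ F (g * x) := by
      intro s x
      have h1 : ((s : F) * g) * x = (algebraMap (Algebra.adjoin K {t}) K⟮t⟯ s) • (g * x) := by
        rw [Algebra.smul_def, ← IsScalarTower.algebraMap_apply, mul_assoc]
        rfl
      rw [h1, map_smul, smul_eq_mul]
    intro b
    have hb : b ∈ Submodule.span (Algebra.adjoin K {t}) (S : Set _) := by rw [hS]; trivial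
    induction hb using Submodule.span_induction with
    | mem y hy =>
      rw [key]
      obtain ⟨r, hr⟩ := Finset.dvd_prod_of_mem σ hy
      rw [hr, mul_comm (σ y) r, map_mul, mul_assoc]
      exact Subring.mul_mem _ ⟨r, rfl⟩ (hσ2 y)
    | zero => simp
    | add y z _ _ hy hz =>
      have : ((((∏ b ∈ S, σ b : Algebra.adjoin K {t}) : F) * g) * ((y + z : _) : F))
          = (((∏ b ∈ S, σ b : Algebra.adjoin K {t}) : F) * g) * (y : F)
            + (((∏ b ∈ S, σ b : Algebra.adjoin K {t}) : F) * g) * (z : F) := by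
        push_cast; ring
      rw [this, map_add]
      exact Subring.add_mem _ hy hz
    | smul a y _ hy =>
      have : ((((∏ b ∈ S, σ b : Algebra.adjoin K {t}) : F) * g) * ((a • y : _) : F))
          = (algebraMap (Algebra.adjoin K {t}) K⟮t⟯ a) •
            ((((∏ b ∈ S, σ b : Algebra.adjoin K {t}) : F) * g) * (y : F)) := by
        rw [Algebra.smul_def (algebraMap (Algebra.adjoin K {t}) K⟮t⟯ a)]
        show _ * ((a : F) * (y : F)) = (a : F) * _
        ring
      rw [this, map_smul, smul_eq_mul]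
      exact Subring.mul_mem _ ⟨a, rfl⟩ hy

/-- (LT2, tame exactness) if `e_P = ord_P t` is nonzero in `K` and `Tr (g b)` is regular at the
zeros of `t` for all `b` without poles outside the poles of `t`, then `ord_P g ≥ -(e_P - 1)`. -/
theorem ord_ge_of_trace_regular [IsAlgClosed K] (t : F) (ht : Transcendental K t)
    [FiniteDimensional K⟮t⟯ F] [Algebra.IsSeparable K⟮t⟯ F]
    (P : Place K F) (hP : 0 < P.ord t) (he : (((P.ord t).toNat : ℕ) : K) ≠ 0) (g : F)
    (hg : ∀ b : F, (∀ Q : Place K F, 0 ≤ Q.ord t → 0 ≤ Q.ord b) →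
      ∀ P' : Place K F, 0 < P'.ord t →
        0 ≤ P'.ord (algebraMap K⟮t⟯ F (Algebra.trace K⟮t⟯ F (g * b)))) :
    1 - P.ord t ≤ P.ord g := by
  rcases eq_or_ne g 0 with rfl | hg0
  · rw [Place.ord_zero]; omega
  haveI := isDedekindDomain_adjoin ht
  haveI := isDedekindDomain_integralClosure (F := F) ht
  haveI := isFractionRing_integralClosure (K := K) t
  haveI := finite_integralClosure (F := F) ht
  haveI := isTorsionFree_integralClosure (K := K) (F := F) t
  haveI := Fermat.Agent.S24Fib.isMaximal_span_tA ht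
  have ht0 : t ≠ 0 := fun h => ht (h ▸ isAlgebraic_zero)
  set e := (P.ord t).toNat with he_def
  have hee : (e : ℤ) = P.ord t := Int.toNat_of_nonneg hP.le
  obtain ⟨𝔓, h𝔓⟩ := exists_heightOneSpectrum ht P hP.le
  -- the residue field of `𝔓` is `K`
  have hff : Fermat.Agent.S24Diff.IsFunctionFieldOver K F t := ⟨ht, inferInstance⟩
  have hK : ∀ d : integralClosure (Algebra.adjoin K {t}) F,
      ∃ c : K, d - algebraMap K (integralClosure (Algebra.adjoin K {t}) F) c ∈ 𝔓.asIdeal := by
    intro d
    have hdP : (d : F) ∈ P.toValuationSubring := integralClosure_mem P hP.le d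
    obtain ⟨c, hc⟩ := Fermat.Agent.S24Res.exists_sub_mem_maximalIdeal hff P ⟨d, hdP⟩
    refine ⟨c, ?_⟩
    by_cases h0 : d - algebraMap K (integralClosure (Algebra.adjoin K {t}) F) c = 0
    · rw [h0]; exact zero_mem _
    rw [Fermat.Agent.S24Bridge.mem_asIdeal_iff_ord_pos (K := K) (F := F) 𝔓 _ h0, ← h𝔓]
    have hne : (⟨(d : F), hdP⟩ - algebraMap K P.toValuationSubring c : P.toValuationSubring)
        ≠ 0 := by
      intro h
      apply h0
      apply Subtype.ext
      have h' : ((⟨(d : F), hdP⟩ - algebraMap K P.toValuationSubring c :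
          P.toValuationSubring) : F) = 0 := congrArg Subtype.val h
      exact h'
    exact (Fermat.Agent.S24Res.mem_maximalIdeal_iff_ord_pos P hne).mp hc
  -- `t B = 𝔓 ^ e * J` with `J` prime to `𝔓`
  set tB : integralClosure (Algebra.adjoin K {t}) F :=
    algebraMap (Algebra.adjoin K {t}) (integralClosure (Algebra.adjoin K {t}) F)
      (Fermat.Agent.S24Fib.tA K t) with htB
  have htBF : algebraMap (integralClosure (Algebra.adjoin K {t}) F) F tB = t := rfl
  have htB0 : tB ≠ 0 := by
    intro h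
    exact ht0 (congrArg Subtype.val h)
  have hmap : Ideal.map (algebraMap (Algebra.adjoin K {t}) (integralClosure (Algebra.adjoin K {t}) F))
      (Ideal.span {Fermat.Agent.S24Fib.tA K t}) = Ideal.span {tB} := by
    rw [Ideal.map_span, Set.image_singleton]
  have htBmem : tB ∈ 𝔓.asIdeal ^ e := by
    rw [mem_pow_iff_le_ord (K := K) (F := F) 𝔓 tB htB0 e, htBF, ← h𝔓]
    exact hee.le
  have htBnot : tB ∉ 𝔓.asIdeal ^ (e + 1) := by
    intro h
    rw [mem_pow_iff_le_ord (K := K) (F := F) 𝔓 tB htB0 (e + 1), htBF, ← h𝔓] at h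
    push_cast at h
    omega
  obtain ⟨J, hJ⟩ : 𝔓.asIdeal ^ e ∣ Ideal.span {tB} := Ideal.dvd_span_singleton.mpr htBmem
  have hcop : IsCoprime (𝔓.asIdeal ^ e) J := by
    apply IsCoprime.pow_left
    rw [Ideal.isCoprime_iff_sup_eq]
    by_contra hne
    have hle : J ≤ 𝔓.asIdeal := by
      have hmax : 𝔓.asIdeal.IsMaximal := 𝔓.isMaximal
      have h1 := hmax.eq_of_le hne le_sup_left
      calc J ≤ 𝔓.asIdeal ⊔ J := le_sup_right
        _ = 𝔓.asIdeal := h1.symm
    apply htBnot
    rw [← Ideal.dvd_span_singleton, hJ, pow_succ]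
    exact mul_dvd_mul_left _ (Ideal.dvd_iff_le.mpr hle)
  obtain ⟨i, hi, z, hz, hiz⟩ := Ideal.isCoprime_iff_exists.mp hcop
  have hzI : z - 1 ∈ 𝔓.asIdeal ^ e := by
    have h1 : z - 1 = -i := by rw [← hiz]; ring
    rw [h1]
    exact neg_mem hi
  have hfin : Module.finrank K (integralClosure (Algebra.adjoin K {t}) F ⧸ 𝔓.asIdeal ^ e) = e :=
    finrank_quotient_pow 𝔓.asIdeal 𝔓.ne_bot hK e
  have hpK : ∀ a : Algebra.adjoin K {t},
      ∃ c : K, a - algebraMap K (Algebra.adjoin K {t}) c ∈
        Ideal.span {Fermat.Agent.S24Fib.tA K t} := by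
    intro a
    obtain ⟨c, hc⟩ := Fermat.Agent.S24Fib.surjective_mk_span_tA (K := K) t (Ideal.Quotient.mk _ a)
    refine ⟨c, ?_⟩
    rw [RingHom.comp_apply, eq_comm, Ideal.Quotient.eq] at hc
    exact hc
  have hmul : 𝔓.asIdeal ^ e * J = Ideal.map
      (algebraMap (Algebra.adjoin K {t}) (integralClosure (Algebra.adjoin K {t}) F))
      (Ideal.span {Fermat.Agent.S24Fib.tA K t}) := by
    rw [hmap, hJ]
  have htr : Algebra.intTrace (Algebra.adjoin K {t}) (integralClosure (Algebra.adjoin K {t}) F) z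
      ∉ Ideal.span {Fermat.Agent.S24Fib.tA K t} :=
    intTrace_notMem_of_isCoprime (K := K) _ hpK _ J hcop hmul z hz hzI (by rw [hfin]; exact he)
  -- the different
  have hsep := isSeparable_fractionRing (Algebra.adjoin K {t}) K⟮t⟯ (L := F)
    (B := integralClosure (Algebra.adjoin K {t}) F)
  have hdiff : ¬ 𝔓.asIdeal ^ e ∣
      differentIdeal (Algebra.adjoin K {t}) (integralClosure (Algebra.adjoin K {t}) F) :=
    not_dvd_differentIdeal_of_intTrace_not_mem (Algebra.adjoin K {t}) _ J hmul z hz htr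
  obtain ⟨s, hs, hstr⟩ := exists_not_dvd_forall_trace_mem ht P hP g
    (fun b => hg (b : F)
      (fun Q hQ => Fermat.Agent.S24Res.ord_nonneg_of_mem Q (integralClosure_mem Q hQ b)) P hP)
  obtain ⟨y, hy, b', hb'⟩ := exists_notMem_mul_mem (Algebra.adjoin K {t}) K⟮t⟯ (𝔓.asIdeal ^ e)
    hdiff ((s : F) * g) hstr
  -- conclusion
  have hy0 : y ≠ 0 := by
    rintro rfl
    exact hy (zero_mem _)
  have hyF0 : algebraMap (integralClosure (Algebra.adjoin K {t}) F) F y ≠ 0 := fun h =>
    hy0 (Subtype.ext h)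
  have hordy : P.ord (algebraMap (integralClosure (Algebra.adjoin K {t}) F) F y) < e := by
    by_contra hcon
    push Not at hcon
    apply hy
    rw [mem_pow_iff_le_ord (K := K) (F := F) 𝔓 y hy0 e, ← h𝔓]
    exact hcon
  obtain ⟨u, hu, hus⟩ := exists_isUnit_of_not_dvd P hP s hs
  have hords : P.ord (s : F) = 0 := by
    rw [← hus]
    exact Fermat.Agent.S24Res.ord_eq_zero_of_isUnit P hu
  have hs0 : (s : F) ≠ 0 := by
    intro h
    apply hs
    rw [show s = 0 from Subtype.ext h]
    exact dvd_zero _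
  have hb'P : 0 ≤ P.ord (algebraMap (integralClosure (Algebra.adjoin K {t}) F) F b') :=
    Fermat.Agent.S24Res.ord_nonneg_of_mem P (integralClosure_mem P hP.le b')
  rw [hb', Place.ord_mul P (mul_ne_zero hs0 hg0) hyF0, Place.ord_mul P hs0 hg0, hords] at hb'P
  omega

end LT2

/-! ### two small lemmas -/

section Misc

/-- the trace only depends on the intermediate field. -/
theorem algebraMap_trace_eq_of_eq {E₁ E₂ : IntermediateField K F} (h : E₁ = E₂) (f : F) :
    algebraMap E₁ F (Algebra.trace E₁ F f) = algebraMap E₂ F (Algebra.trace E₂ F f) := by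
  subst h
  rfl

/-- the trace only depends on the field `K(t)`. -/
theorem algebraMap_trace_eq_of_adjoin_eq (t x : F) (h : K⟮t⟯ = K⟮x⟯) (f : F) :
    algebraMap K⟮t⟯ F (Algebra.trace K⟮t⟯ F f) = algebraMap K⟮x⟯ F (Algebra.trace K⟮x⟯ F f) :=
  algebraMap_trace_eq_of_eq h f

/-- an element of `K(t)` without poles at the places `Q` with `0 ≤ ord_Q t` is a polynomial
in `t`. -/
theorem mem_adjoin_of_ord_nonneg (t : F) (ht : Transcendental K t) [FiniteDimensional K⟮t⟯ F]
    [Algebra.IsSeparable K⟮t⟯ F] (a : K⟮t⟯)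
    (ha : ∀ Q : Place K F, 0 ≤ Q.ord t → 0 ≤ Q.ord (algebraMap K⟮t⟯ F a)) :
    (a : F) ∈ Algebra.adjoin K {t} := by
  haveI := isDedekindDomain_adjoin ht
  have h1 : IsIntegral (Algebra.adjoin K {t}) (algebraMap K⟮t⟯ F a) :=
    mem_integralClosure_of_forall_mem ht _
      (fun Q hQ => Fermat.Agent.S24Res.mem_of_ord_nonneg Q (ha Q hQ))
  have h2 : IsIntegral (Algebra.adjoin K {t}) a :=
    (isIntegral_algebraMap_iff (algebraMap K⟮t⟯ F).injective).mp h1
  obtain ⟨y, hy⟩ := (IsIntegrallyClosed.isIntegral_iff (R := Algebra.adjoin K {t})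
    (K := K⟮t⟯)).mp h2
  rw [← hy]
  exact y.2

end Misc

end Fermat.Agent.RRHur
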