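import Mathlib
import Fermat.Agent.Lib.RR.RRI
import Fermat.Agent.Lib.RR.Hurwitz.Norm
import Fermat.Agent.Lib.RR.Hurwitz.Count
import Fermat.Agent.Lib.RR.Hurwitz.LocalTrace
import Fermat.Agent.Lib.RR.Hurwitz.LowerCore

set_option autoImplicit false
set_option linter.style.haveILetI false
set_option linter.unusedSectionVars false

/-!
# Riemann-Hurwitz by lattices, part 3a: lower bound for the genus (any characteristic)

`deg R ≤ 2 g - 2 + 2 n` for every divisor `R ≤ ∑ (e_P - 1) P`.

Proof. Reduced basis `u_i, d_i`.  For `f ∈ L(m Doo + R)` the trace `Tr_{F/K(x)}(u_i f)` is regular at all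
finite `c` and has pole order `≤ d_i + m` at infinity (local trace lemma `ord_trace_nonneg` of
`LocalTrace.lean`, applied with `t = x - c` and with `t = x⁻¹`, `f := x^(-(d_i+m)) u_i f`), hence is a
polynomial of degree `≤ d_i + m` (`mem_adjoin_of_ord_nonneg`).  The map `f ↦ (Tr(u_i f))_i` is injective
(trace form nondegenerate), so `ℓ(m Doo + R) ≤ ∑ (d_i + m + 1)`; Riemann's inequality gives
`ℓ(m Doo + R) ≥ m n + deg R + 1 - g`; and `∑ d_i = g + n - 1`.

(The proof below uses `m = 0`; the core of the argument is `hurwitz_lower_core` of `LowerCore.lean`.)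
-/

noncomputable section

open AlgebraicCurve IntermediateField Polynomial

namespace Fermat.Agent.RRHur

open Fermat.Agent.RR

variable {K F : Type*} [Field K] [Field F] [Algebra K F]

/-- `R` is bounded above by the ramification divisor of `x`:
`R P ≤ e_P - 1` where `e_P = -ord_P x` at the poles and `e_P = ord_P (x - c)` at the zeros of
`x - c`. -/
def IsRamBound (x : F) (R : Divisor K F) : Prop :=
  ∀ v : Place K F, (v.ord x < 0 → R v ≤ -v.ord x - 1) ∧
    ∀ c : K, 0 < v.ord (x - algebraMap K F c) → R v ≤ v.ord (x - algebraMap K F c) - 1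

theorem lower_finiteDimensional_of_eq {E₁ E₂ : IntermediateField K F} (h : E₁ = E₂)
    [FiniteDimensional E₂ F] : FiniteDimensional E₁ F := by
  subst h
  infer_instance

theorem lower_isSeparable_of_eq {E₁ E₂ : IntermediateField K F} (h : E₁ = E₂)
    [Algebra.IsSeparable E₂ F] : Algebra.IsSeparable E₁ F := by
  subst h
  infer_instance

/-- the local trace lemma for a parameter `t` with `K(t) = K(x)`, for the trace to `K(x)`. -/
theorem lowerLT1_of_adjoin_eq {x t : F} (ht : Transcendental K t) (hEq : K⟮t⟯ = K⟮x⟯)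
    [FiniteDimensional K⟮x⟯ F] [Algebra.IsSeparable K⟮x⟯ F] : LowerLT1 (K := K) x t := by
  haveI : FiniteDimensional K⟮t⟯ F := lower_finiteDimensional_of_eq hEq
  haveI : Algebra.IsSeparable K⟮t⟯ F := lower_isSeparable_of_eq hEq
  intro f hf P hP
  rw [← algebraMap_trace_eq_of_adjoin_eq t x hEq f]
  exact ord_trace_nonneg t ht f hf P hP

theorem lower_adjoin_sub_const (x : F) (c : K) : K⟮x - algebraMap K F c⟯ = K⟮x⟯ := by
  apply le_antisymm
  · rw [IntermediateField.adjoin_simple_le_iff]
    exact sub_mem (IntermediateField.mem_adjoin_simple_self K x)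
      (IntermediateField.algebraMap_mem _ c)
  · rw [IntermediateField.adjoin_simple_le_iff]
    have h1 : x - algebraMap K F c ∈ K⟮x - algebraMap K F c⟯ :=
      IntermediateField.mem_adjoin_simple_self K _
    have h2 : algebraMap K F c ∈ K⟮x - algebraMap K F c⟯ :=
      IntermediateField.algebraMap_mem _ c
    have h3 := add_mem h1 h2
    rwa [sub_add_cancel] at h3

theorem lower_adjoin_inv (x : F) : K⟮x⁻¹⟯ = K⟮x⟯ := by
  apply le_antisymm
  · rw [IntermediateField.adjoin_simple_le_iff]
    exact inv_mem (IntermediateField.mem_adjoin_simple_self K x)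
  · rw [IntermediateField.adjoin_simple_le_iff]
    have h1 : x⁻¹ ∈ K⟮x⁻¹⟯ := IntermediateField.mem_adjoin_simple_self K _
    have h2 := inv_mem h1
    rwa [inv_inv] at h2

theorem lower_transcendental_sub_const {x : F} (hx : Transcendental K x) (c : K) :
    Transcendental K (x - algebraMap K F c) := by
  intro halg
  apply hx
  have h2 := halg.add (isAlgebraic_algebraMap (R := K) (A := F) c)
  rwa [sub_add_cancel] at h2

theorem lower_transcendental_inv {x : F} (hx : Transcendental K x) : Transcendental K x⁻¹ := by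
  intro halg
  apply hx
  have h2 := halg.inv
  rwa [inv_inv] at h2

/-- **Riemann-Hurwitz, lower bound for the genus** (any characteristic). -/
theorem hurwitz_lower [IsAlgClosed K] (h : IsRRField K F) {x : F} (hx : Transcendental K x)
    [FiniteDimensional K⟮x⟯ F] [Algebra.IsSeparable K⟮x⟯ F] (R : Divisor K F)
    (hR : IsRamBound x R) :
    Divisor.degree R ≤ 2 * (genusFF K F : ℤ) - 2 + 2 * (Module.finrank K⟮x⟯ F : ℤ) := by
  exact hurwitz_lower_core h hx R hR
    (fun c => lowerLT1_of_adjoin_eq (lower_transcendental_sub_const hx c)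
      (lower_adjoin_sub_const x c))
    (lowerLT1_of_adjoin_eq (lower_transcendental_inv hx) (lower_adjoin_inv x))
    (fun a ha => mem_adjoin_of_ord_nonneg x hx a ha)

end Fermat.Agent.RRHur
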