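import Mathlib
import Fermat.Agent.Lib.RR.RRI
import Fermat.Agent.Lib.RR.Hurwitz.Norm
import Fermat.Agent.Lib.RR.Hurwitz.Count
import Fermat.Agent.Lib.RR.Hurwitz.UpperCore
import Fermat.Agent.Lib.RR.Hurwitz.LocalTrace

set_option autoImplicit false
set_option linter.style.haveILetI false
set_option linter.unusedSectionVars false

/-!
# Riemann-Hurwitz by lattices, part 3b: upper bound for the genus (tame ramification)

`2 g - 2 + 2 n ≤ deg R` if `R ≥ ∑ (e_P - 1) P` and all `e_P` are nonzero in `K`.

Proof. Reduced basis `u_i, d_i`, dual basis `u_i^*` for the trace form of `F / K(x)`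
(`Tr(u_i^* u_j) = δ_ij`).  CLAIM: `u_i^* ∈ L(R - d_i Doo)`.
* finite place `P` over `c`: for `b` without poles over the finite part, `b = ∑ a_j(x) u_j` with
  polynomials `a_j` (`IsReducedBasis.integral`), so `Tr(u_i^* b) = a_i(x)` is regular at `c`;
  tame exactness `ord_ge_of_trace_regular` (`LocalTrace.lean`, `t = x - c`) gives
  `ord_P u_i^* ≥ -(e_P - 1)`.
* pole `P` of `x`: `g := x^(d_i) u_i^*`; for `b` regular at the poles of `x`, `b = ∑ a_j u_j`, `a_j ∈ K(x)`,
  `IsReducedBasis.orth` gives `ord_P a_j ≥ d_j e_P`, so `Tr(g b) = x^(d_i) a_i` is regular at the poles;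
  `ord_ge_of_trace_regular` with `t = x⁻¹` gives `ord_P u_i^* ≥ d_i e_P - (e_P - 1)`.
Then `x^k u_i^*` (`k ≤ m + d_i`) are independent in `L(m Doo + R)`: `ℓ(m Doo + R) ≥ ∑ (m + d_i + 1)`;
Riemann-Roch for `m` large: `ℓ(m Doo + R) = m n + deg R + 1 - g`; and `∑ d_i = g + n - 1`.
-/

noncomputable section

open AlgebraicCurve IntermediateField Polynomial

namespace Fermat.Agent.RRHur

open Fermat.Agent.RR

variable {K F : Type*} [Field K] [Field F] [Algebra K F]

theorem upper_adjoin_sub_const (x : F) (c : K) : K⟮x - algebraMap K F c⟯ = K⟮x⟯ := by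
  apply le_antisymm
  · rw [adjoin_simple_le_iff]
    exact sub_mem (mem_adjoin_simple_self K x) (IntermediateField.algebraMap_mem _ c)
  · rw [adjoin_simple_le_iff]
    have h1 := add_mem (mem_adjoin_simple_self K (x - algebraMap K F c))
      (IntermediateField.algebraMap_mem K⟮x - algebraMap K F c⟯ c)
    simpa using h1

theorem upper_adjoin_inv (x : F) : K⟮x⁻¹⟯ = K⟮x⟯ := by
  apply le_antisymm
  · rw [adjoin_simple_le_iff]
    exact inv_mem (mem_adjoin_simple_self K x)
  · rw [adjoin_simple_le_iff]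
    have h1 := inv_mem (mem_adjoin_simple_self K x⁻¹)
    simpa using h1

theorem upper_transcendental_sub_const {x : F} (hx : Transcendental K x) (c : K) :
    Transcendental K (x - algebraMap K F c) := by
  intro halg
  apply hx
  have h1 := halg.add (isAlgebraic_algebraMap (R := K) (A := F) c)
  simpa using h1

theorem upper_transcendental_inv {x : F} (hx : Transcendental K x) :
    Transcendental K x⁻¹ := by
  intro halg
  apply hx
  have h1 := halg.inv
  simpa using h1


section Final

variable [IsAlgClosed K]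

/-- `LT2` for a parameter `t` with `K(t) = K(x)`, with the trace to `K(x)`. -/
theorem upperLT2_of_adjoin_eq {x t : F} (ht : Transcendental K t) (hxt : K⟮t⟯ = K⟮x⟯)
    [FiniteDimensional K⟮x⟯ F] [Algebra.IsSeparable K⟮x⟯ F] : UpperLT2 (K := K) x t := by
  haveI hfd : FiniteDimensional K⟮t⟯ F := hxt ▸ (inferInstance : FiniteDimensional K⟮x⟯ F)
  haveI hsep : Algebra.IsSeparable K⟮t⟯ F := hxt ▸ (inferInstance : Algebra.IsSeparable K⟮x⟯ F)
  intro P hP he g hg
  refine ord_ge_of_trace_regular t ht P hP he g fun b hb P' hP' => ?_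
  rw [algebraMap_trace_eq_of_adjoin_eq t x hxt]
  exact hg b hb P' hP'

end Final

/-- `R` is bounded below by the ramification divisor of `x`, and `x` is tamely ramified. -/
def IsTameRamDiv (x : F) (R : Divisor K F) : Prop :=
  ∀ v : Place K F,
    (v.ord x < 0 → -v.ord x - 1 ≤ R v ∧ (((-v.ord x).toNat : ℕ) : K) ≠ 0) ∧
    ∀ c : K, 0 < v.ord (x - algebraMap K F c) →
      v.ord (x - algebraMap K F c) - 1 ≤ R v ∧
        ((((v.ord (x - algebraMap K F c)).toNat : ℕ)) : K) ≠ 0

/-- **Riemann-Hurwitz, upper bound for the genus** (tame ramification). -/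
theorem hurwitz_upper_tame [IsAlgClosed K] (h : IsRRField K F) {x : F} (hx : Transcendental K x)
    [FiniteDimensional K⟮x⟯ F] [Algebra.IsSeparable K⟮x⟯ F] (R : Divisor K F)
    (hR : IsTameRamDiv x R) :
    2 * (genusFF K F : ℤ) - 2 + 2 * (Module.finrank K⟮x⟯ F : ℤ) ≤ Divisor.degree R :=
  hurwitz_upper_core h hx R hR
    (fun c => upperLT2_of_adjoin_eq (upper_transcendental_sub_const hx c)
      (upper_adjoin_sub_const x c))
    (upperLT2_of_adjoin_eq (upper_transcendental_inv hx) (upper_adjoin_inv x))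

end Fermat.Agent.RRHur
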