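import Mathlib
import Fermat.Agent.Lib.RR.Hurwitz.Lower
import Fermat.Agent.Lib.RR.Hurwitz.Upper

set_option autoImplicit false
set_option linter.style.haveILetI false
set_option linter.unusedSectionVars false

/-!
# Riemann-Hurwitz by lattices: comparison of genera

Tame ramification data on `F` (characteristic `0`), dominated by ramification data on `F'`
(characteristic `ℓ`) with the same degree: `g(F) ≤ g(F')`.
-/

noncomputable section

open AlgebraicCurve IntermediateField Polynomial

namespace Fermat.Agent.RRHur

open Fermat.Agent.RR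

variable {K F : Type*} [Field K] [Field F] [Algebra K F]

theorem genusFF_le_of_hurwitz {K' F' : Type*} [Field K'] [Field F'] [Algebra K' F']
    [IsAlgClosed K] [IsAlgClosed K'] (h : IsRRField K F) (h' : IsRRField K' F')
    {x : F} (hx : Transcendental K x) [FiniteDimensional K⟮x⟯ F] [Algebra.IsSeparable K⟮x⟯ F]
    {x' : F'} (hx' : Transcendental K' x') [FiniteDimensional K'⟮x'⟯ F']
    [Algebra.IsSeparable K'⟮x'⟯ F']
    (hn : Module.finrank K'⟮x'⟯ F' = Module.finrank K⟮x⟯ F)
    (R : Divisor K F) (hR : IsTameRamDiv x R) (R' : Divisor K' F') (hR' : IsRamBound x' R')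
    (hdeg : Divisor.degree R ≤ Divisor.degree R') :
    genusFF K F ≤ genusFF K' F' := by
  have h1 := hurwitz_upper_tame h hx R hR
  have h2 := hurwitz_lower h' hx' R' hR'
  rw [hn] at h2
  omega

end Fermat.Agent.RRHur
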