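/-
G wave (S36), seat GENUS-REL (helper63), part 2: the Riemann-Hurwitz UPPER bound for a good
reduction (the hypothesis `hex` of `RRRel.two_genus_ge_of_totally_ramified`).

`F / K(x)` in characteristic `0`, unramified outside `S ∪ {∞}`; `F' / K'(x')` of the same degree,
whose fibres over `φ(S) ∪ {∞}` have at most as many points as those of `F`, and
`g(F') ≤ g(F)` (Deuring).  Then the Riemann-Hurwitz upper bound holds for `(F', x')` over
`φ(S) ∪ {∞}` (in any characteristic, tame or not).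
-/
import Mathlib
import Fermat.Agent.Lib.RR.Hurwitz.Rel
import Fermat.Agent.Lib.GoodRed.Genus

set_option autoImplicit false
set_option linter.style.haveILetI false
set_option linter.unusedSectionVars false

noncomputable section

open AlgebraicCurve IntermediateField

namespace Fermat.Agent.RRRel

open Fermat.Agent.RR Fermat.Agent.RRHur

section Abstract

variable {K F K' F' : Type*} [Field K] [Field F] [Algebra K F] [Field K'] [Field F']
  [Algebra K' F']

/-- **Riemann-Hurwitz upper bound for a reduction.** -/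
theorem hurwitz_upper_of_fibres [IsAlgClosed K] [CharZero K]
    (h : IsRRField K F)
    {x : F} (hx : Transcendental K x) [FiniteDimensional K⟮x⟯ F] [Algebra.IsSeparable K⟮x⟯ F]
    {x' : F'}
    (hn : Module.finrank K'⟮x'⟯ F' = Module.finrank K⟮x⟯ F)
    (S : Finset K) (φ : K → K') (hφ : Set.InjOn φ (S : Set K))
    (hunr : ∀ c : K, c ∉ S →
      Nat.card {v : Place K F // 0 < v.ord (x - algebraMap K F c)} = Module.finrank K⟮x⟯ F)
    (hfib : ∀ c ∈ S, Nat.card {v : Place K' F' // 0 < v.ord (x' - algebraMap K' F' (φ c))} ≤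
      Nat.card {v : Place K F // 0 < v.ord (x - algebraMap K F c)})
    (hinf : Nat.card {v : Place K' F' // v.ord x' < 0} ≤
      Nat.card {v : Place K F // v.ord x < 0})
    (hg : genusFF K' F' ≤ genusFF K F) :
    ∃ S' : Finset K', 2 * (genusFF K' F' : ℤ) - 2 + 2 * (Module.finrank K'⟮x'⟯ F' : ℤ) ≤
      ∑ c ∈ S', ((Module.finrank K'⟮x'⟯ F' : ℤ) -
        (Nat.card {v : Place K' F' // 0 < v.ord (x' - algebraMap K' F' c)} : ℤ)) +
      ((Module.finrank K'⟮x'⟯ F' : ℤ) - (Nat.card {v : Place K' F' // v.ord x' < 0} : ℤ)) := by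
  classical
  refine ⟨S.image φ, ?_⟩
  have h0 := hurwitz_formula_fibres h hx S hunr
  rw [Finset.sum_image hφ, hn]
  have h1 : ∀ c ∈ S, ((Module.finrank K⟮x⟯ F : ℤ) -
        (Nat.card {v : Place K F // 0 < v.ord (x - algebraMap K F c)} : ℤ)) ≤
      ((Module.finrank K⟮x⟯ F : ℤ) -
        (Nat.card {v : Place K' F' // 0 < v.ord (x' - algebraMap K' F' (φ c))} : ℤ)) := by
    intro c hc
    have := hfib c hc
    omega
  have h2 := Finset.sum_le_sum h1
  have h3 : (genusFF K' F' : ℤ) ≤ (genusFF K F : ℤ) := by exact_mod_cast hg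
  omega

end Abstract

section GoodRed

open Fermat.Agent.GoodRed

variable {K k F Fk : Type} [Field K] [Field k] [Field F] [Field Fk] [Algebra K F] [Algebra k Fk]

/-- **Riemann-Hurwitz upper bound for the reduction of a `RedModel`** (inputs of the genus
equality of cluster B + Deuring's inequality). -/
theorem hurwitz_upper_of_fibreBound [IsAlgClosed K] [CharZero K] [IsAlgClosed k]
    (M : RedModel K k F Fk) (n : ℕ) (hdeg : DegData M n) (BD : BranchData M n)
    (hK : IsRRField K F)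
    (hfib : FibreBound M)
    (hinf : fibreCard k M.xbar⁻¹ 0 ≤ fibreCard K M.x⁻¹ 0)
    (hg : genusFF k Fk ≤ genusFF K F) :
    ∃ S' : Finset k, 2 * (genusFF k Fk : ℤ) - 2 + 2 * (Module.finrank k⟮M.xbar⟯ Fk : ℤ) ≤
      ∑ c ∈ S', ((Module.finrank k⟮M.xbar⟯ Fk : ℤ) -
        (Nat.card {v : Place k Fk // 0 < v.ord (M.xbar - algebraMap k Fk c)} : ℤ)) +
      ((Module.finrank k⟮M.xbar⟯ Fk : ℤ) - (Nat.card {v : Place k Fk // v.ord M.xbar < 0} : ℤ)) := by
  have hx := M.ge_x_transcendental
  have hxk : Transcendental k M.xbar := M.x_trans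
  haveI : FiniteDimensional K⟮M.x⟯ F :=
    Module.finite_of_finrank_pos (by rw [hdeg.deg]; exact hdeg.pos)
  haveI : FiniteDimensional k⟮M.xbar⟯ Fk :=
    Module.finite_of_finrank_pos (by rw [hdeg.degk]; exact hdeg.pos)
  haveI : Algebra.IsSeparable k⟮M.xbar⟯ Fk := hdeg.sepk
  haveI : Algebra.IsSeparable K⟮M.x⟯ F := Algebra.IsSeparable.of_integral _ _
  refine hurwitz_upper_of_fibres hK hx (by rw [hdeg.deg, hdeg.degk])
    BD.S M.resFun ?_ ?_ ?_ ?_ hg
  · intro c hc c' hc' hcc
    have hcA := BD.S_mem c hc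
    have hcA' := BD.S_mem c' hc'
    rw [M.resFun_of_mem hcA, M.resFun_of_mem hcA'] at hcc
    exact BD.S_inj c hc c' hc' hcA hcA' hcc
  · intro c hc
    rw [← fibreCard_eq_card_zeros hx, BD.unram c hc, hdeg.deg]
  · intro c hc
    have hcA := BD.S_mem c hc
    rw [← fibreCard_eq_card_zeros hx, ← fibreCard_eq_card_zeros hxk, M.resFun_of_mem hcA]
    exact hfib c hcA
  · rw [← fibreCard_inv_eq_card_poles hx, ← fibreCard_inv_eq_card_poles hxk]
    exact hinf

/-- **relative Riemann-Hurwitz lower bound over a good reduction**: `E = Fk` the reduction of a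
`RedModel`, `φ : Fk → F'` finite of degree `e`, separable over `k(x̄)`, `T` totally ramified:
`2 + 2 e (g(Fk) - 1) + (e - 1) |T| ≤ 2 g(F')`. -/
theorem two_genus_ge_over_goodRed [IsAlgClosed K] [CharZero K] [IsAlgClosed k]
    (M : RedModel K k F Fk) (n : ℕ) (hdeg : DegData M n) (BD : BranchData M n)
    (hK : IsRRField K F) (hk : IsRRField k Fk)
    (hfib : FibreBound M)
    (hinf : fibreCard k M.xbar⁻¹ 0 ≤ fibreCard K M.x⁻¹ 0)
    (hg : genusFF k Fk ≤ genusFF K F)
    {F' : Type} [Field F'] [Algebra k F'] (hF' : IsRRField k F')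
    (φ : Fk →ₐ[k] F') (hφ : φ.toRingHom.IsIntegral)
    [FiniteDimensional k⟮φ M.xbar⟯ F'] [Algebra.IsSeparable k⟮φ M.xbar⟯ F']
    (T : Finset (Place k Fk))
    (hT : ∀ v ∈ T, ∀ w w' : Place k F', w.restrictAlong φ hφ = v → w'.restrictAlong φ hφ = v →
      w = w') :
    2 + 2 * (finrankAlong k φ : ℤ) * ((genusFF k Fk : ℤ) - 1) +
        ((finrankAlong k φ : ℤ) - 1) * (T.card : ℤ) ≤ 2 * (genusFF k F' : ℤ) := by
  have hxk : Transcendental k M.xbar := M.x_trans
  haveI : FiniteDimensional k⟮M.xbar⟯ Fk :=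
    Module.finite_of_finrank_pos (by rw [hdeg.degk]; exact hdeg.pos)
  obtain ⟨S', hS'⟩ := hurwitz_upper_of_fibreBound M n hdeg BD hK hfib hinf hg
  exact two_genus_ge_of_totally_ramified hk hF' φ hφ hxk S' hS' T hT

end GoodRed

end Fermat.Agent.RRRel
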